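import Fermat.Agent.Ribet.H577.Ram2
import Fermat.Agent.Ribet.Spec
import Fermat.Agent.S29.Parts

/-!
# RIBET / WALL-q, leaf ODD-VACUOUS (helper577), core: from raw Eichler–Shimura

`oddVacuous_of_rawES577 : S29.RawESStatement → ∀ P N, ¬ 2 ∣ N → ∀ S a, ¬ FreyEmbedsIn P N S a`
(the body of `H158.WallQ.OddVacuousStatement`, light imports).  The `p`-torsion of the Frey curve
is ramified at `2` (leaf RAM2, `frey_ramified_two577`), while inertia at `2` acts trivially on
`J₀(N)[p]` when `2 ∤ N p` (raw Eichler–Shimura).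
-/

set_option autoImplicit false

namespace Fermat.Agent.Ribet.H577

open Fermat.Agent.Ribet Fermat.Agent.Ribet.Spec

/-- **ODD-VACUOUS** from raw Eichler–Shimura (unfolded form of `H158.WallQ.OddVacuousStatement`). -/
theorem oddVacuous_of_rawES577 (hES : Fermat.Agent.S29.RawESStatement)
    (P : FreyPackage) (N : ℕ) [NeZero N] (hN : ¬ 2 ∣ N) (S : Finset ℕ) (a : ℕ → ℤ) :
    ¬ FreyEmbedsIn P N S a := by
  intro hemb
  obtain ⟨ι, hinj, hgal, -⟩ := hemb
  obtain ⟨A, hA⟩ := Fermat.Agent.S54.exists_valuationSubring_liesOver 2 Nat.prime_two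
  have h2 : ¬ 2 ∣ N * P.p := by
    intro h
    rcases (Nat.Prime.dvd_mul Nat.prime_two).mp h with h | h
    · exact hN h
    · have := (Nat.prime_dvd_prime_iff_eq Nat.prime_two P.pp).mp h
      have := P.hp5
      omega
  obtain ⟨hin, -⟩ := hES N P.p P.pp 2 Nat.prime_two h2 A hA
  obtain ⟨σ, hσ, t, ht⟩ := frey_ramified_two577 P A hA
  apply ht
  apply hinj
  rw [hgal σ t]
  refine hin σ hσ (ι t) ?_
  have ht0 : (P.p : ℤ) • t = 0 := by
    apply Subtype.ext
    exact (Submodule.mem_torsionBy_iff _ _).mp t.2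
  rw [← map_zsmul, ht0, map_zero]

end Fermat.Agent.Ribet.H577
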