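import Fermat.Agent.Ribet.H577.Ram2Ladder
import Fermat.Agent.S13.AtTwo511
import Fermat.Agent.S13.H11.FreyArith
import Fermat.Agent.A2.IF.H429.Inertia

/-!
# RIBET / HARD, leaf RAM2 (helper577): the mod-`p` representation of the Frey curve is RAMIFIED
# at `2`

`frey_ramified_two577` : for every Frey package `P` (`p ≥ 5`) and EVERY place `A` of `ℚ̄` over `2`
there are `σ` in the inertia group of `A` and `t ∈ E[p]` with `σ • t ≠ t`.
`not_galoisRepUnramifiedAt_two577 : ¬ P.GaloisRepUnramifiedAt 2`.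

Proof (no Tate curve).  The constant coefficient of the `p`-division polynomial `freyQ P` is even
(`Ram2Ladder`), its leading coefficient `p` is a `2`-adic unit, so some root `x` has `v(x) < 1`:
a point `(x, y) ∈ E[p]` reducing to the node.  The node law at `2` (helper511,
`NodeModel2.torsion_near_node`) gives `v(a₄) < v(x)` and `v(x) ^ p = v(a₄) ^ (2 j)`.  If inertia
fixed `(x, y)`, then `x` would lie in the inertia field, whose value group is generated by `v(2)`
(helper429, `exists_zpow_of_mem_inertiaField`): `v(x) = v(2) ^ ξ`, while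
`v(a₄) = v(2) ^ (p β - 4)`; so `p ξ = 2 (p β - 4) j` with `0 < ξ < p β - 4`, which is impossible
because `p ∤ 8` (helper11, `frey_arith_contra`).
-/

set_option autoImplicit false

namespace Fermat.Agent.Ribet.H577

open WeierstrassCurve WeierstrassCurve.Affine WeierstrassCurve.Affine.Point Polynomial
open Fermat.Agent.S05.Assemble Fermat.Agent.S13.H164

section Root

variable {K : Type*} [Field K] [IsAlgClosed K] {Γ₀ : Type*} [LinearOrderedCommGroupWithZero Γ₀]

/-- A polynomial over an algebraically closed valued field whose leading coefficient is a unit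
and whose constant coefficient is not has a root of valuation `< 1`. -/
theorem exists_root_val_lt_one577 (v : Valuation K Γ₀) (f : K[X])
    (hlead : v f.leadingCoeff = 1) (h0 : v (f.coeff 0) < 1) :
    ∃ x, f.eval x = 0 ∧ v x < 1 := by
  by_contra hcon
  push Not at hcon
  have hf0 : f ≠ 0 := by
    rintro rfl
    simp at hlead
  have hc := (IsAlgClosed.splits f).coeff_zero_eq_leadingCoeff_mul_prod_roots
  have hprod : 1 ≤ v f.roots.prod := by
    refine Multiset.prod_induction (fun x => 1 ≤ v x) f.roots ?_ ?_ ?_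
    · intro a b ha hb
      rw [map_mul]
      calc (1 : Γ₀) = 1 * 1 := (one_mul 1).symm
        _ ≤ v a * v b := mul_le_mul' ha hb
    · rw [map_one]
    · intro a ha
      exact hcon a ((mem_roots hf0).mp ha)
  rw [hc, map_mul, map_mul, hlead, mul_one, map_pow, Valuation.map_neg, map_one, one_pow,
    one_mul] at h0
  exact absurd hprod (not_le.mpr h0)

end Root

section Frey

variable (P : FreyPackage) {A : ValuationSubring Qb}

/-- There is a point of `E[p]` of the Frey curve which reduces to the node at `2`. -/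
theorem exists_torsion_near_node577 (hA : A.LiesOverPrime 2) :
    ∃ (x y : Qb) (h : (P.freyCurve⁄Qb).toAffine.Nonsingular x y),
      P.p • Point.some x y h = 0 ∧ A.valuation x < 1 := by
  set f : Qb[X] := (freyQ P).map (Int.castRingHom Qb) with hf
  have hinj : Function.Injective (Int.castRingHom Qb) := RingHom.injective_int _
  have hlead : f.leadingCoeff = (P.p : Qb) := by
    rw [hf, leadingCoeff_map_of_injective hinj, freyQ_leadingCoeff]
    simp
  have hc0 : f.coeff 0 = (((freyQ P).eval 0 : ℤ) : Qb) := by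
    rw [hf, coeff_map, coeff_zero_eq_eval_zero]
    rfl
  obtain ⟨x, hx, hvx⟩ := exists_root_val_lt_one577 A.valuation f
    (by rw [hlead]; exact Fermat.Agent.S13.AtTwo511.val_p_eq_one_two P hA)
    (by
      rw [hc0]
      exact val_int_lt_one hA (by exact_mod_cast constCoeff_freyQ_even577 P))
  obtain ⟨y, hy⟩ := IsAlgClosed.exists_root
    (Fermat.Agent.S51.H780.yPoly (P.freyCurve⁄Qb).toAffine x) (by
      rw [Polynomial.degree_eq_natDegree (Fermat.Agent.S51.H780.yPoly_ne_zero _ x),
        Fermat.Agent.S51.H780.yPoly_natDegree]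
      norm_num)
  have he : (P.freyCurve⁄Qb).toAffine.Equation x y := (Fermat.Agent.S51.H780.yPoly_eval _).mp hy
  have hns : (P.freyCurve⁄Qb).toAffine.Nonsingular x y :=
    (Affine.equation_iff_nonsingular_of_Δ_ne_zero (frey_baseChange_Δ_ne_zero P)).mp he
  refine ⟨x, y, hns, (frey_nsmul_eq_zero_iff P hns).mpr ?_, hvx⟩
  rw [aeval_def, eval₂_eq_eval_map]
  exact hx

/-- `v(a₄) = v(2) ^ (p β - 4)` at a place of `ℚ̄` over `2`. -/
theorem val_frey_a₄_eq577 (hA : A.LiesOverPrime 2) :
    ∃ β : ℕ, 1 ≤ β ∧ A.valuation (P.freyCurve⁄Qb).a₄ =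
      A.valuation (2 : Qb) ^ ((P.p : ℤ) * β - 4) := by
  have h2 : (A.valuation.comap (algebraMap ℚ Qb)) (2 : ℚ) < 1 := by
    rw [Valuation.comap_apply]
    simpa using Fermat.Agent.S13.AtTwo511.val_two_lt_one hA
  obtain ⟨β, hβ, hval⟩ := Fermat.Agent.S13.H11.frey_val_a₄ P
    (w := A.valuation.comap (algebraMap ℚ Qb)) h2
  refine ⟨β, hβ, ?_⟩
  rw [Valuation.comap_apply, Valuation.comap_apply] at hval
  have e2 : algebraMap ℚ Qb 2 = 2 := by simp
  rw [e2] at hval
  rw [← hval]
  rfl

/-- **RAM2.**  At every place over `2`, inertia acts non-trivially on `E[p]` of the Frey curve. -/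
theorem frey_ramified_two577 (A : ValuationSubring Qb) (hA : A.LiesOverPrime 2) :
    ∃ σ ∈ A.inertiaSubgroupIn ℚ,
      ∃ t : Submodule.torsionBy ℤ (P.freyCurve⁄Qb).Point P.p, σ • t ≠ t := by
  by_contra hcon
  push Not at hcon
  obtain ⟨x, y, h, hP, hx⟩ := exists_torsion_near_node577 P hA
  obtain ⟨M⟩ := Fermat.Agent.S13.AtTwo511.exists_frey_nodeModel2 P hA
  obtain ⟨hlo, j, hj⟩ := M.torsion_near_node P.hp_odd h hP hx
  -- `x` lies in the inertia field
  have hfix : ∀ σ ∈ A.inertiaSubgroupIn ℚ, σ x = x := by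
    intro σ hσ
    have hmem : (Point.some x y h : (P.freyCurve⁄Qb).Point) ∈
        Submodule.torsionBy ℤ (P.freyCurve⁄Qb).Point P.p := by
      rw [Submodule.mem_torsionBy_iff, natCast_zsmul]
      exact hP
    have h1 := congrArg Subtype.val (hcon σ hσ ⟨_, hmem⟩)
    have h2 : σ • (Point.some x y h : (P.freyCurve⁄Qb).Point) = Point.some x y h := h1
    rw [Fermat.Agent.S13.Comp2.smul_some'] at h2
    exact (Point.some.inj h2).1
  have hx0 : x ≠ 0 := by
    rintro rfl
    rw [_root_.map_zero] at hlo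
    exact absurd hlo (not_lt.mpr zero_le)
  obtain ⟨ξ, hξ⟩ := Fermat.Agent.A2.IF.H429.exists_zpow_of_mem_inertiaField A 2 Nat.prime_two hA
    x ((Fermat.Agent.A2.IF.H429.mem_inertiaField_iff A).mpr hfix) hx0
  have h2lt : A.valuation (2 : Qb) < 1 := Fermat.Agent.S13.AtTwo511.val_two_lt_one hA
  have h20 : A.valuation (2 : Qb) ≠ 0 := by
    rw [Valuation.ne_zero_iff]
    norm_num
  have hvx : A.valuation x = A.valuation (2 : Qb) ^ ξ := by
    have e2 : ((2 : ℕ) : Qb) = 2 := by norm_num
    rw [e2, map_div₀, map_zpow₀] at hξ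
    exact (div_eq_one_iff_eq (zpow_ne_zero ξ h20)).mp hξ
  obtain ⟨β, hβ, hva⟩ := val_frey_a₄_eq577 P hA
  -- transport to the valuation `w` on `ℚ` to use helper11's exponent arithmetic
  have hw2 : (A.valuation.comap (algebraMap ℚ Qb)) (2 : ℚ) = A.valuation (2 : Qb) := by
    rw [Valuation.comap_apply]
    simp
  have h2 : (A.valuation.comap (algebraMap ℚ Qb)) (2 : ℚ) < 1 := by rw [hw2]; exact h2lt
  rw [hvx, hva] at hlo hj
  rw [hvx] at hx
  rw [← hw2] at hlo hj hx
  have h0 : 0 < ξ := (Fermat.Agent.S13.H11.zpow_lt_one_iff h2 ξ).mp hx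
  have h1 : ξ < (P.p : ℤ) * β - 4 := (Fermat.Agent.S13.H11.zpow_lt_zpow_iff h2 _ _).mp hlo
  have e : (P.p : ℤ) * ξ = 2 * ((P.p : ℤ) * β - 4) * j := by
    have e1 : ((A.valuation.comap (algebraMap ℚ Qb)) (2 : ℚ) ^ ξ) ^ P.p =
        (A.valuation.comap (algebraMap ℚ Qb)) 2 ^ (ξ * (P.p : ℤ)) := by
      rw [zpow_mul, zpow_natCast]
    have e2 : ((A.valuation.comap (algebraMap ℚ Qb)) (2 : ℚ) ^ ((P.p : ℤ) * β - 4)) ^ (2 * j) =
        (A.valuation.comap (algebraMap ℚ Qb)) 2 ^ (((P.p : ℤ) * β - 4) * ((2 * j : ℕ) : ℤ)) := by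
      rw [zpow_mul, zpow_natCast]
    rw [e1, e2, Fermat.Agent.S13.H11.zpow_eq_zpow_iff h2] at hj
    push_cast at hj
    linarith
  exact Fermat.Agent.S13.H11.frey_arith_contra P β ξ j h0 h1 e

/-- **RAM2**, Prelude form: the mod-`p` representation of the Frey curve is ramified at `2`. -/
theorem not_galoisRepUnramifiedAt_two577 : ¬ P.GaloisRepUnramifiedAt 2 := by
  intro hunr
  obtain ⟨A, hA⟩ := Fermat.Agent.S54.exists_valuationSubring_liesOver 2 Nat.prime_two
  obtain ⟨σ, hσ, t, ht⟩ := frey_ramified_two577 P A hA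
  exact ht (hunr A hA σ hσ t)

end Frey

end Fermat.Agent.Ribet.H577
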