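import Fermat.Agent.Ribet.H577.Ram2
import Fermat.Agent.S59.H577.GTW
import Fermat.Agent.S59.H601.ResidualBC
import Fermat.Agent.Ribet.H104.FreyModelAtP
import Fermat.Agent.S05

/-!
# RIBET / HARD, leaf RAM2 (helper577), part 3: `Arch.ResidualHyp` for the Frey curve, ANY `p ≥ 5`

The Frey → `ρ̄` dictionary of row HARD (board §3.5) needs the standing hypotheses
`S59.Arch.ResidualHyp` (absolute irreducibility, cyclotomic determinant, split characteristic
polynomials, Taylor–Wiles irreducibility on index-two subgroups, unipotent inertia at `Smin`) for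
`ρ̄ = E[p] ⊗ k` of the Frey curve at a GENERAL prime `p ≥ 5`.  `S59.H405.curveResidualHyp` is
restricted to `p ∈ {3, 5}`; `S59.H577.curveResidualHyp_of_ram` works for every odd `p` as soon as
`ρ̄` is ramified at some prime `q ≠ p`.  For the Frey curve `q = 2` (leaf RAM2).

* `frey_isMinSet577`   : `IsMinSet p (curveResidual p freyCurveInt …) {2, p}` (RAM2 + S05);
* `frey_residualHyp577`: `ResidualHyp p 𝒪 (curveResidual p freyCurveInt …) {2, p}`.
-/

set_option autoImplicit false
set_option linter.style.haveILetI false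

open Polynomial IsLocalRing

namespace Fermat.Agent.Ribet.H577

open WeierstrassCurve WeierstrassCurve.Affine WeierstrassCurve.Affine.Point
open Fermat.Agent.S59.Arch

/-- `ℚ̄` -/
abbrev QbR577 : Type := AlgebraicClosure ℚ

section Transport

variable (P : FreyPackage)

/-- RAM2 for any curve equal to the Frey curve (used for `freyCurveInt.map (Int.castRingHom ℚ)`). -/
theorem ramified_two_of_eq577 (E : WeierstrassCurve ℚ) (hE : E = P.freyCurve)
    (A : ValuationSubring QbR577) (hA : A.LiesOverPrime 2) :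
    ∃ σ ∈ A.inertiaSubgroupIn ℚ,
      ∃ t : Submodule.torsionBy ℤ (E⁄QbR577).Point P.p, σ • t ≠ t := by
  subst hE
  exact frey_ramified_two577 P A hA

/-- S05 for any curve equal to the Frey curve. -/
theorem unramified_of_eq577 (E : WeierstrassCurve ℚ) (hE : E = P.freyCurve) {q : ℕ}
    (hq : q.Prime) (hq2 : q ≠ 2) (hqp : q ≠ P.p) :
    WeierstrassCurve.Affine.Point.GaloisRepUnramifiedAt (K := QbR577) ℚ E P.p q := by
  subst hE
  exact Fermat.Agent.S05.result P hq hq2 hqp

/-- Irreducibility for any curve equal to the Frey curve. -/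
theorem irreducible_of_eq577 (E : WeierstrassCurve ℚ) (hE : E = P.freyCurve)
    (hirr : GaloisRepIsIrreducible (K := QbR577) ℚ P.freyCurve P.p) :
    GaloisRepIsIrreducible (K := QbR577) ℚ E P.p := by
  subst hE
  exact hirr

/-- Irreducibility of `E[p]` of the Frey curve in the language of integral models. -/
theorem frey_modRepIsIrreducible577
    (hirr : GaloisRepIsIrreducible (K := QbR577) ℚ P.freyCurve P.p) :
    P.freyCurveInt.ModRepIsIrreducible P.p :=
  irreducible_of_eq577 P _ (Fermat.Agent.Ribet.H104.freyCurve_eq_map P).symm hirr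

end Transport

section Residual

variable (p : ℕ) [Fact p.Prime] (E : WeierstrassCurve ℚ)
  (hcard : Nat.card (Submodule.torsionBy ℤ (E⁄QbR577).Point p) = p ^ 2)
  (hker : GaloisFactorsThroughFiniteLevel
    (WeierstrassCurve.Affine.Point.galoisRepModuleEnd (K := QbR577) ℚ E p))

/-- Ramification of `residualGaloisRepOf` is ramification of `E[p]` in the Prelude sense. -/
theorem residual_isUnramifiedAt_iff577 (q : ℕ) :
    (E.residualGaloisRepOf p hcard hker).IsUnramifiedAt q ↔
      WeierstrassCurve.Affine.Point.GaloisRepUnramifiedAt (K := QbR577) ℚ E p q := by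
  constructor
  · intro h A hA σ hσ x
    have h1 := h A hA σ hσ
    have h2 : (E.residualGaloisRepOf p hcard hker).ρ σ x = x := by
      rw [h1]
      rfl
    exact h2
  · intro h A hA σ hσ
    refine LinearMap.ext fun x => ?_
    exact h A hA σ hσ x

end Residual

section Frey

variable (P : FreyPackage) [Fact P.p.Prime]
  (hcard : Nat.card (Submodule.torsionBy ℤ
    ((P.freyCurveInt.map (Int.castRingHom ℚ))⁄QbR577).Point P.p) = P.p ^ 2)
  (hker : GaloisFactorsThroughFiniteLevel
    (WeierstrassCurve.Affine.Point.galoisRepModuleEnd (K := QbR577) ℚ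
      (P.freyCurveInt.map (Int.castRingHom ℚ)) P.p))

/-- `ρ̄ = E[p] ⊗ k` of the Frey curve is ramified at `2`. -/
theorem frey_curveResidual_ramified_two577 {k : Type} [Field k] (ι : ZMod P.p →+* k) :
    ¬ (curveResidual P.p P.freyCurveInt hcard hker ι).IsUnramifiedAt 2 := by
  intro h
  have h1 : ((P.freyCurveInt.map (Int.castRingHom ℚ)).residualGaloisRepOf P.p hcard
      hker).IsUnramifiedAt 2 :=
    (Fermat.Agent.S59.H601.isUnramifiedAt_baseChangeAlong_iff601 ι _ 2).mp h
  have h2 := (residual_isUnramifiedAt_iff577 P.p _ hcard hker 2).mp h1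
  obtain ⟨A, hA⟩ := Fermat.Agent.S54.exists_valuationSubring_liesOver 2 Nat.prime_two
  obtain ⟨σ, hσ, t, ht⟩ := ramified_two_of_eq577 P _
    (Fermat.Agent.Ribet.H104.freyCurve_eq_map P).symm A hA
  exact ht (h2 A hA σ hσ t)

/-- `ρ̄ = E[p] ⊗ k` of the Frey curve is unramified at every prime `q ≠ 2, p` (S05). -/
theorem frey_curveResidual_unramified577 {k : Type} [Field k] (ι : ZMod P.p →+* k) {q : ℕ}
    (hq : q.Prime) (hq2 : q ≠ 2) (hqp : q ≠ P.p) :
    (curveResidual P.p P.freyCurveInt hcard hker ι).IsUnramifiedAt q := by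
  refine (Fermat.Agent.S59.H601.isUnramifiedAt_baseChangeAlong_iff601 ι _ q).mpr ?_
  refine (residual_isUnramifiedAt_iff577 P.p _ hcard hker q).mpr ?_
  exact unramified_of_eq577 P _ (Fermat.Agent.Ribet.H104.freyCurve_eq_map P).symm hq hq2 hqp

/-- **The minimal set of the Frey curve is `{2, p}`.** -/
theorem frey_isMinSet577 {k : Type} [Field k] (ι : ZMod P.p →+* k) :
    IsMinSet P.p (curveResidual P.p P.freyCurveInt hcard hker ι) {2, P.p} := by
  refine ⟨by simp, ?_, ?_⟩
  · intro q hq
    rcases Finset.mem_insert.mp hq with rfl | hq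
    · exact Nat.prime_two
    · rw [Finset.mem_singleton.mp hq]
      exact P.pp
  · intro q hq hqp
    constructor
    · intro hmem
      rcases Finset.mem_insert.mp hmem with rfl | hmem
      · exact frey_curveResidual_ramified_two577 P hcard hker ι
      · exact absurd (Finset.mem_singleton.mp hmem) hqp
    · intro hram
      by_contra hmem
      have hq2 : q ≠ 2 := fun h => hmem (by rw [h]; simp)
      exact hram (frey_curveResidual_unramified577 P hcard hker ι hq hq2 hqp)

/-- **`Arch.ResidualHyp` for the Frey curve at every `p ≥ 5`**, with `Smin = {2, p}`. -/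
theorem frey_residualHyp577
    (hirr : GaloisRepIsIrreducible (K := QbR577) ℚ P.freyCurve P.p)
    (𝒪 : Type) [CommRing 𝒪] [IsDomain 𝒪] [IsDiscreteValuationRing 𝒪]
    [IsAdicComplete (maximalIdeal 𝒪) 𝒪] [Finite (ResidueField 𝒪)] [CharZero 𝒪]
    (hp𝒪 : (P.p : 𝒪) ∈ maximalIdeal 𝒪)
    (ι : ZMod P.p →+* ResidueField 𝒪)
    (hι : ∀ f : (ZMod P.p)[X], f.Monic → f.natDegree = 2 →
      ∃ α β : ResidueField 𝒪, f.map ι = (X - C α) * (X - C β)) :
    ResidualHyp P.p 𝒪 (curveResidual P.p P.freyCurveInt hcard hker ι) {2, P.p} := by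
  have hp2 : P.p ≠ 2 := by
    have := P.hp5
    omega
  exact Fermat.Agent.S59.H577.curveResidualHyp_of_ram P.p hp2 P.freyCurveInt
    (Fermat.Agent.Ribet.H104.Δ_ne_zero P) (Fermat.Agent.Ribet.H104.isSemistableModel P)
    (frey_modRepIsIrreducible577 P hirr) hcard hker 𝒪 hp𝒪 ι hι {2, P.p}
    (frey_isMinSet577 P hcard hker ι)
    ⟨2, by simp, fun h => hp2 h.symm⟩

end Frey

end Fermat.Agent.Ribet.H577
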