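import Fermat.Agent.S13.H164.Frey

/-!
# RIBET / HARD, leaf RAM2 (helper577), part 1: the `x`-ladder at the `2`-torsion point `x = 0`

For a Weierstrass curve `y² + a₁ x y = x³ + a₂ x² + a₄ x` (`b₆ = 0`, `b₄ = 2 a₄`, `b₈ = -a₄²`) the
point `T = (0, 0)` has order `2`, so the `x`-ladder `lad n` of helper164 evaluated at `x = 0`
alternates between `(0 : *)` (odd `n`) and `(* : 0)` (even `n`), and for even `n ≥ 2` the first
entry is divisible by every divisor `a` of `b₈`.  Consequently the constant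
coefficient of the odd division polynomial `Qpoly W m` (`m ≥ 1`) is divisible by `a`.

For the Frey curve: the constant coefficient of `freyQ P` is even (`constCoeff_freyQ_even577`).
-/

set_option autoImplicit false

namespace Fermat.Agent.Ribet.H577

open Fermat.Agent.S13.H164 Polynomial

section Generic

variable {A : Type*} [CommRing A]

/-- The ladder at `x = 0` for `b₆ = 0`: parity pattern and divisibility. -/
theorem lad_zero_pattern577 (b₂ b₄ b₈ a : A) (h8 : a ∣ b₈) (j : ℕ) :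
    (Odd j → (lad b₂ b₄ 0 b₈ 0 j).1 = 0) ∧
      (Even j → (lad b₂ b₄ 0 b₈ 0 j).2 = 0 ∧ (2 ≤ j → a ∣ (lad b₂ b₄ 0 b₈ 0 j).1)) := by
  induction j using Nat.strong_induction_on with
  | _ j ih =>
    rcases Nat.even_or_odd' j with ⟨k, rfl | rfl⟩
    · -- `j = 2 k`
      refine ⟨fun h => absurd h (by simp), fun _ => ?_⟩
      rcases k with _ | k
      · simp
      · have hk : k + 1 < 2 * (k + 1) := by omega
        obtain ⟨hodd, heven⟩ := ih (k + 1) hk
        rw [lad_two_mul]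
        rcases Nat.even_or_odd (k + 1) with he | ho
        · obtain ⟨hv, hu⟩ := heven he
          have hu' : a ∣ (lad b₂ b₄ 0 b₈ 0 (k + 1)).1 := hu (by
            obtain ⟨r, hr⟩ := he
            omega)
          refine ⟨by simp [dD, hv], fun _ => ?_⟩
          simp only [dN, hv]
          have : (lad b₂ b₄ 0 b₈ 0 (k + 1)).1 ^ 4 -
              b₄ * (lad b₂ b₄ 0 b₈ 0 (k + 1)).1 ^ 2 * 0 ^ 2 -
              2 * 0 * (lad b₂ b₄ 0 b₈ 0 (k + 1)).1 * 0 ^ 3 - b₈ * 0 ^ 4 =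
              (lad b₂ b₄ 0 b₈ 0 (k + 1)).1 ^ 4 := by ring
          rw [this]
          exact dvd_pow hu' (by norm_num)
        · have hu := hodd ho
          refine ⟨by simp [dD, hu], fun _ => ?_⟩
          simp only [dN, hu]
          have : (0 : A) ^ 4 - b₄ * 0 ^ 2 * (lad b₂ b₄ 0 b₈ 0 (k + 1)).2 ^ 2 -
              2 * 0 * 0 * (lad b₂ b₄ 0 b₈ 0 (k + 1)).2 ^ 3 -
              b₈ * (lad b₂ b₄ 0 b₈ 0 (k + 1)).2 ^ 4 =
              -(b₈ * (lad b₂ b₄ 0 b₈ 0 (k + 1)).2 ^ 4) := by ring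
          rw [this]
          exact (dvd_neg).mpr (Dvd.dvd.mul_right h8 _)
    · -- `j = 2 k + 1`
      refine ⟨fun _ => ?_, fun h => absurd h (by simp)⟩
      rcases k with _ | k
      · simp
      · have hk : k + 1 < 2 * (k + 1) + 1 := by omega
        have hk' : k + 1 + 1 < 2 * (k + 1) + 1 := by omega
        obtain ⟨hodd₁, heven₁⟩ := ih (k + 1) hk
        obtain ⟨hodd₂, heven₂⟩ := ih (k + 1 + 1) hk'
        rw [lad_two_mul_add_one]
        rcases Nat.even_or_odd (k + 1) with he | ho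
        · have hv₁ := (heven₁ he).1
          have hu₂ := hodd₂ (he.add_one)
          simp only [oN, oS, oW, hv₁, hu₂]
          ring
        · have hu₁ := hodd₁ ho
          have hv₂ := (heven₂ (ho.add_one)).1
          simp only [oN, oS, oW, hu₁, hv₂]
          ring

/-- The value at `x = 0` of the odd division polynomial is divisible by every divisor of
`b₈` (when `b₆ = 0` and `m ≥ 1`). -/
theorem dvd_oW_lad_zero577 (b₂ b₄ b₈ a : A) (h8 : a ∣ b₈) (m : ℕ) (hm : 1 ≤ m) :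
    a ∣ oW (lad b₂ b₄ 0 b₈ 0 m).1 (lad b₂ b₄ 0 b₈ 0 m).2
      (lad b₂ b₄ 0 b₈ 0 (m + 1)).1 (lad b₂ b₄ 0 b₈ 0 (m + 1)).2 := by
  obtain ⟨hodd₁, heven₁⟩ := lad_zero_pattern577 b₂ b₄ b₈ a h8 m
  obtain ⟨hodd₂, heven₂⟩ := lad_zero_pattern577 b₂ b₄ b₈ a h8 (m + 1)
  rcases Nat.even_or_odd m with he | ho
  · obtain ⟨hv₁, hu₁⟩ := heven₁ he
    have hu₁' := hu₁ (by obtain ⟨r, hr⟩ := he; omega)
    simp only [oW, hv₁, mul_zero, sub_zero]
    exact Dvd.dvd.mul_right hu₁' _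
  · have hu₁ := hodd₁ ho
    obtain ⟨-, hu₂⟩ := heven₂ ho.add_one
    have hu₂' := hu₂ (by omega)
    simp only [oW, hu₁, zero_mul, zero_sub]
    exact (dvd_neg).mpr (Dvd.dvd.mul_right hu₂' _)

end Generic

section Curve

variable {R : Type*} [CommRing R]

/-- For a curve `y² + a₁ x y = x³ + a₂ x² + a₄ x` and `m ≥ 1`: `a₄ ∣ Qpoly W m (0)`. -/
theorem a₄_dvd_eval_zero_Qpoly577 (W : WeierstrassCurve R) (h3 : W.a₃ = 0) (h6 : W.a₆ = 0)
    (m : ℕ) (hm : 1 ≤ m) : W.a₄ ∣ (Qpoly W m).eval 0 := by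
  have hb6 : W.b₆ = 0 := by simp [WeierstrassCurve.b₆, h3, h6]
  have hb8 : W.a₄ ∣ W.b₈ := ⟨-W.a₄, by simp [WeierstrassCurve.b₈, h3, h6]; ring⟩
  rw [eval_Qpoly, hb6]
  exact dvd_oW_lad_zero577 W.b₂ W.b₄ W.b₈ W.a₄ hb8 m hm

end Curve

section Frey

variable (P : FreyPackage)

lemma two_dvd_freyCurveInt_a₄577 : (2 : ℤ) ∣ P.freyCurveInt.a₄ := by
  have h2 : (2 : ℤ) ∣ P.b := (ZMod.intCast_zmod_eq_zero_iff_dvd P.b 2).1 P.hb2
  obtain ⟨s, hs⟩ := h2
  obtain ⟨k, hk⟩ : ∃ k, P.p = 5 + k := ⟨P.p - 5, by have := P.hp5; omega⟩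
  have hB : -(P.a ^ P.p) * P.b ^ P.p = 16 * (2 * (-(P.a ^ P.p) * (2 ^ k * s ^ P.p))) := by
    have h2p : (2 : ℤ) ^ P.p = 32 * 2 ^ k := by
      rw [hk, pow_add]
      norm_num
    rw [hs, mul_pow, h2p]
    ring
  have : P.freyCurveInt.a₄ = 2 * (-(P.a ^ P.p) * (2 ^ k * s ^ P.p)) := by
    change -(P.a ^ P.p) * (P.b ^ P.p) / 16 = _
    rw [hB]
    exact Int.mul_ediv_cancel_left _ (by norm_num)
  exact ⟨_, this⟩

/-- The constant coefficient of the `p`-division polynomial of the Frey curve is even. -/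
theorem constCoeff_freyQ_even577 : (2 : ℤ) ∣ (freyQ P).eval 0 := by
  have hm : 1 ≤ P.p / 2 := by have := P.hp5; omega
  exact (two_dvd_freyCurveInt_a₄577 P).trans
    (a₄_dvd_eval_zero_Qpoly577 P.freyCurveInt rfl rfl (P.p / 2) hm)

end Frey

end Fermat.Agent.Ribet.H577
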